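import Mathlib
import Fermat.Agent.LT.T5.H415.AutT5
import Fermat.Agent.LT.T7.H159.SplitIntL
import Fermat.Agent.LT.T7.H305.Match893Spec

/-!
# Row LT, tower T7, station C2, leaf C2.7.13.3b `LocEqSplitC305b` (helper208, registry row 2741)
# PART A: the product of the local components of `δ` is the component of `γ`

OFF-MAIN.  `v` a place of `K`, `w 0, w 1, …` places of `K'` over `v` with `w j = σ (w (j+1))`
(`T5.PlaceRel`), `i j : K_v ≃ K'_{w j}` valuation preserving isomorphisms which are the
inclusion on `K`.  Then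

* `psi_sigma208` : `i_j⁻¹ ((σ x)_{w_j}) = i_{j+1}⁻¹ (x_{w_{j+1}})` for `x ∈ K'` (the two sides are
  ring homomorphisms `K' → K_v` with the same valuation which agree on `K`; `K` is dense in `K_v`);
* `prod_split208` : `∏_{a < n} i_{j+a}⁻¹ (δ_{w_{j+a}}) = i_j⁻¹ ((δ σ(δ) ⋯ σ^{n-1}(δ))_{w_j})`;
* `prod_eq_gamma208` : if `N δ = γ` then `δ_0 δ_1 ⋯ δ_{l-1} = γ_v`
  (`H159.prodFrom159 δ l 0 = H305.locG305 v γ`).

No hole, nothing assumed.  Imports: Mathlib, helper415 `AutT5` (valuation of `σ x`), helper159
`SplitIntL` (`prodFrom159`), the spec (byte-identical copies).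
-/

set_option autoImplicit false

open IsDedekindDomain NumberField

noncomputable section

namespace Fermat.Agent.LT.T7.H208

open Fermat.Agent.LT.H556 Fermat.Agent.LT.H556.A0 Fermat.Agent.LT Fermat.Agent.LT.T7
  Fermat.Agent.LT.T7.H305 Fermat.Agent.LT.T7.H159

section Alg

variable {K K' : Type} [Field K] [NumberField K] [Field K'] [NumberField K'] [Algebra K K']

/-- `σ` fixes `K`. -/
theorem sigma_fix208 (D : CompData K K') (hD : IsCompData D) (x : K) :
    D.s.σ (algebraMap K K' x) = algebraMap K K' x :=
  (hD.cyc.fixed _).1 ((hD.base _).2 ⟨x, rfl⟩)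

/-- The inverse of a valuation preserving isomorphism preserves the valuation. -/
theorem val_symm208 {k k' : Type} [Field k] [Field k'] [Valued k T6.Γ₀] [Valued k' T6.Γ₀]
    (i : k ≃+* k') (hi : ∀ x : k, Valued.v (i x) = Valued.v x) (y : k') :
    Valued.v (i.symm y) = Valued.v y := by
  rw [← hi (i.symm y), RingEquiv.apply_symm_apply]

/-- `K` is dense in `K_v`, in the form of the valuation. -/
theorem exists_close208 (v : HeightOneSpectrum (𝓞 K)) (b c : v.adicCompletion K) (hc : c ≠ 0) :
    ∃ y : K, Valued.v (algebraMap K (v.adicCompletion K) y - b) < Valued.v c := by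
  have hd : DenseRange (algebraMap K (v.adicCompletion K)) :=
    HeightOneSpectrum.denseRange_algebraMap K v
  have hopen : IsOpen {u : v.adicCompletion K | Valued.v (u - b) < Valued.v c} := by
    have h := Valued.isOpen_ball (v.adicCompletion K)
      (r := (Valued.v : Valuation (v.adicCompletion K) T6.Γ₀).restrict c)
    have hc' : Continuous fun x : v.adicCompletion K => x - b :=
      continuous_id.sub continuous_const
    have := h.preimage hc'
    convert this using 1
    ext x
    simp only [Set.mem_preimage]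
    exact (Valuation.restrict_lt_iff (v := (Valued.v : Valuation (v.adicCompletion K) T6.Γ₀))).symm
  have hmem : b ∈ {u : v.adicCompletion K | Valued.v (u - b) < Valued.v c} := by
    show Valued.v (b - b) < Valued.v c
    rw [sub_self, map_zero]
    exact zero_lt_iff.2 ((Valuation.ne_zero_iff _).2 hc)
  obtain ⟨u, ⟨y, rfl⟩, hu⟩ := hd.inter_nhds_nonempty (hopen.mem_nhds hmem)
  exact ⟨y, hu⟩

/-- **The local components at consecutive places.** -/
theorem psi_sigma208 (D : CompData K K') (hD : IsCompData D) (v : HeightOneSpectrum (𝓞 K))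
    (w₁ w₀ : HeightOneSpectrum (𝓞 K')) (hrel : T5.PlaceRel D.s w₁ w₀)
    (i₀ : v.adicCompletion K ≃+* w₀.adicCompletion K')
    (i₁ : v.adicCompletion K ≃+* w₁.adicCompletion K')
    (hi₀ : ∀ x : K, i₀ (algebraMap K (v.adicCompletion K) x)
      = algebraMap K' (w₀.adicCompletion K') (algebraMap K K' x))
    (hi₁ : ∀ x : K, i₁ (algebraMap K (v.adicCompletion K) x)
      = algebraMap K' (w₁.adicCompletion K') (algebraMap K K' x))
    (hv₀ : ∀ x : v.adicCompletion K, Valued.v (i₀ x) = Valued.v x)
    (hv₁ : ∀ x : v.adicCompletion K, Valued.v (i₁ x) = Valued.v x) (x : K') :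
    i₀.symm (algebraMap K' (w₀.adicCompletion K') (D.s.σ x))
      = i₁.symm (algebraMap K' (w₁.adicCompletion K') x) := by
  by_contra hne
  set A : v.adicCompletion K := i₀.symm (algebraMap K' (w₀.adicCompletion K') (D.s.σ x)) with hA
  set B : v.adicCompletion K := i₁.symm (algebraMap K' (w₁.adicCompletion K') x) with hB
  have hz : A - B ≠ 0 := sub_ne_zero.2 hne
  obtain ⟨y, hy⟩ := exists_close208 v B (A - B) hz
  -- the two differences have the same valuation
  have hfix : D.s.σ (x - algebraMap K K' y) = D.s.σ x - algebraMap K K' y := by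
    rw [map_sub, sigma_fix208 D hD]
  have hA' : A - algebraMap K (v.adicCompletion K) y
      = i₀.symm (algebraMap K' (w₀.adicCompletion K') (D.s.σ (x - algebraMap K K' y))) := by
    rw [hfix, map_sub, map_sub, ← hi₀ y, RingEquiv.symm_apply_apply]
  have hB' : B - algebraMap K (v.adicCompletion K) y
      = i₁.symm (algebraMap K' (w₁.adicCompletion K') (x - algebraMap K K' y)) := by
    rw [map_sub, map_sub, ← hi₁ y, RingEquiv.symm_apply_apply]
  have hvA : Valued.v (A - algebraMap K (v.adicCompletion K) y)
      = w₁.valuation K' (x - algebraMap K K' y) := by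
    rw [hA', val_symm208 i₀ hv₀]
    have h1 : Valued.v (algebraMap K' (w₀.adicCompletion K') (D.s.σ (x - algebraMap K K' y)))
        = w₀.valuation K' (D.s.σ (x - algebraMap K K' y)) :=
      HeightOneSpectrum.valuedAdicCompletion_eq_valuation' w₀ _
    rw [h1]
    exact Fermat.Agent.LT.H415.valuation_sigma415 D.s.σ w₁ w₀ hrel _
  have hvB : Valued.v (B - algebraMap K (v.adicCompletion K) y)
      = w₁.valuation K' (x - algebraMap K K' y) := by
    rw [hB', val_symm208 i₁ hv₁]
    exact HeightOneSpectrum.valuedAdicCompletion_eq_valuation' w₁ _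
  have hyB : Valued.v (B - algebraMap K (v.adicCompletion K) y) < Valued.v (A - B) := by
    have : B - algebraMap K (v.adicCompletion K) y
        = -(algebraMap K (v.adicCompletion K) y - B) := by ring
    rw [this, Valuation.map_neg]
    exact hy
  have hyA : Valued.v (A - algebraMap K (v.adicCompletion K) y) < Valued.v (A - B) := by
    rw [hvA, ← hvB]
    exact hyB
  have hsplit : A - B = (A - algebraMap K (v.adicCompletion K) y)
      - (B - algebraMap K (v.adicCompletion K) y) := by ring
  have hle : Valued.v (A - B) ≤ max (Valued.v (A - algebraMap K (v.adicCompletion K) y))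
      (Valued.v (B - algebraMap K (v.adicCompletion K) y)) := by
    conv_lhs => rw [hsplit]
    exact Valuation.map_sub _ _ _
  exact absurd (lt_of_le_of_lt hle (max_lt hyA hyB)) (lt_irrefl _)

/-- The local component `x ↦ i⁻¹ (x_w)`. -/
def psi208 (v : HeightOneSpectrum (𝓞 K)) (w : HeightOneSpectrum (𝓞 K'))
    (i : v.adicCompletion K ≃+* w.adicCompletion K') : K' →+* v.adicCompletion K :=
  ((i.symm : w.adicCompletion K' ≃+* v.adicCompletion K) :
    w.adicCompletion K' →+* v.adicCompletion K).comp (algebraMap K' (w.adicCompletion K'))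

theorem psi_apply208 (v : HeightOneSpectrum (𝓞 K)) (w : HeightOneSpectrum (𝓞 K'))
    (i : v.adicCompletion K ≃+* w.adicCompletion K') (x : K') :
    psi208 v w i x = i.symm (algebraMap K' (w.adicCompletion K') x) := rfl

/-- The local component of `δ`, as the image under `psi208`. -/
theorem map_psi208 (v : HeightOneSpectrum (𝓞 K)) (w : HeightOneSpectrum (𝓞 K'))
    (i : v.adicCompletion K ≃+* w.adicCompletion K') (δ : GL (Fin 2) K') :
    Matrix.GeneralLinearGroup.map (psi208 v w i) δ
      = Matrix.GeneralLinearGroup.map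
          ((i.symm : w.adicCompletion K' ≃+* v.adicCompletion K) :
            w.adicCompletion K' →+* v.adicCompletion K) (locG305 w δ) := by
  apply Matrix.GeneralLinearGroup.ext
  intro a b
  rfl

/-- **The product of the local components.** -/
theorem prod_split208 (D : CompData K K') (hD : IsCompData D) (v : HeightOneSpectrum (𝓞 K))
    (w : ℕ → HeightOneSpectrum (𝓞 K'))
    (i : ∀ j : ℕ, v.adicCompletion K ≃+* (w j).adicCompletion K')
    (hrel : ∀ j : ℕ, T5.PlaceRel D.s (w (j + 1)) (w j))
    (hi : ∀ (j : ℕ) (x : K), i j (algebraMap K (v.adicCompletion K) x)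
      = algebraMap K' ((w j).adicCompletion K') (algebraMap K K' x))
    (hval : ∀ (j : ℕ) (x : v.adicCompletion K), Valued.v (i j x) = Valued.v x)
    (δ : GL (Fin 2) K') (n j : ℕ) :
    prodFrom159 (fun a => Matrix.GeneralLinearGroup.map
        (((i a).symm : (w a).adicCompletion K' ≃+* v.adicCompletion K) :
          (w a).adicCompletion K' →+* v.adicCompletion K) (locG305 (w a) δ)) n j
      = Matrix.GeneralLinearGroup.map (psi208 v (w j) (i j)) (D.s.normUpTo n δ) := by
  induction n generalizing j with
  | zero =>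
    show (1 : GL (Fin 2) (v.adicCompletion K)) = Matrix.GeneralLinearGroup.map _ 1
    rw [map_one]
  | succ n ih =>
    show Matrix.GeneralLinearGroup.map
        (((i j).symm : (w j).adicCompletion K' ≃+* v.adicCompletion K) :
          (w j).adicCompletion K' →+* v.adicCompletion K) (locG305 (w j) δ)
        * prodFrom159 (fun a => Matrix.GeneralLinearGroup.map
          (((i a).symm : (w a).adicCompletion K' ≃+* v.adicCompletion K) :
            (w a).adicCompletion K' →+* v.adicCompletion K) (locG305 (w a) δ)) n (j + 1)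
      = Matrix.GeneralLinearGroup.map (psi208 v (w j) (i j))
          (δ * D.s.onRat (D.s.normUpTo n δ))
    rw [ih (j + 1), map_mul, ← map_psi208]
    congr 1
    apply Matrix.GeneralLinearGroup.ext
    intro a b
    show psi208 v (w (j + 1)) (i (j + 1)) ((D.s.normUpTo n δ : Matrix (Fin 2) (Fin 2) K') a b)
      = psi208 v (w j) (i j) (D.s.σ ((D.s.normUpTo n δ : Matrix (Fin 2) (Fin 2) K') a b))
    rw [psi_apply208, psi_apply208]
    exact (psi_sigma208 D hD v (w (j + 1)) (w j) (hrel j) (i j) (i (j + 1)) (hi j) (hi (j + 1))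
      (hval j) (hval (j + 1)) _).symm

/-- **`δ_0 δ_1 ⋯ δ_{l-1} = γ_v`** if `N δ = γ`. -/
theorem prod_eq_gamma208 (D : CompData K K') (hD : IsCompData D) (v : HeightOneSpectrum (𝓞 K))
    (w : ℕ → HeightOneSpectrum (𝓞 K'))
    (i : ∀ j : ℕ, v.adicCompletion K ≃+* (w j).adicCompletion K')
    (hrel : ∀ j : ℕ, T5.PlaceRel D.s (w (j + 1)) (w j))
    (hi : ∀ (j : ℕ) (x : K), i j (algebraMap K (v.adicCompletion K) x)
      = algebraMap K' ((w j).adicCompletion K') (algebraMap K K' x))
    (hval : ∀ (j : ℕ) (x : v.adicCompletion K), Valued.v (i j x) = Valued.v x)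
    (δ : GL (Fin 2) K') (γ : GL (Fin 2) K)
    (hN : D.s.normUpTo D.l δ = Matrix.GeneralLinearGroup.map (algebraMap K K') γ) :
    prodFrom159 (fun a => Matrix.GeneralLinearGroup.map
        (((i a).symm : (w a).adicCompletion K' ≃+* v.adicCompletion K) :
          (w a).adicCompletion K' →+* v.adicCompletion K) (locG305 (w a) δ)) D.l 0
      = locG305 v γ := by
  rw [prod_split208 D hD v w i hrel hi hval δ D.l 0, hN]
  apply Matrix.GeneralLinearGroup.ext
  intro a b
  show psi208 v (w 0) (i 0) (algebraMap K K' ((γ : Matrix (Fin 2) (Fin 2) K) a b))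
    = algebraMap K (v.adicCompletion K) ((γ : Matrix (Fin 2) (Fin 2) K) a b)
  rw [psi_apply208, ← hi 0, RingEquiv.symm_apply_apply]

end Alg

end Fermat.Agent.LT.T7.H208

end
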