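import Mathlib
import Fermat.Agent.LT.T6.Spec
import Fermat.Agent.LT.T6.H420.GLTop
import Fermat.Agent.LT.T6.H846.OrbSumInt

/-!
# Row LT, tower T7, station C2, leaf C2.7.13.3b `LocEqSplitC305b` (helper208, registry row 2741)
# PART B: the cut-off orbital integral of a compact set converges (finite places)

OFF-MAIN.  `k` a local field (`T6.IsLocalField`), `γ ∈ GL₂(k)` regular, `μ` the Haar measure
with `μ(U(m)) = 1`, `β ≥ 0` a continuous cut-off function for the centraliser of `γ`.

* `Frame846.integrable208` : in the abstract frame of helper846 (`T6/H846/OrbAssembly.lean`),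
  if `φ` (bi-`U`-invariant) has an orbit sum at `δ` then `x ↦ φ(x⁻¹ δ s(x)) β(x)` is INTEGRABLE
  (the integrability which is implicit in the proof of `Frame846.orbSum_eq_integral`: the
  integrand is a finite sum of multiples of `1_{T x U} β`, and `β` is integrable on `T x U`).
* `exists_biInv_ge208` : every compact set of `GL₂(k)` is contained in a compact set `S` whose
  indicator function is bi-`U(m)`-invariant with finite support modulo `U(m)`.
* `integrable_orb_compact208` : `a ↦ 1_K(a⁻¹ γ a) β(a)` is integrable for every compact `K`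
  (orbit sums exist: `T6.OrbSumExC` for `k' = k`, `l = e = 1`).

No hole, nothing assumed.  Imports: Mathlib, `T6/Spec.lean`, helper420 `GLTop` (`U(m)` is compact
and open), helper846 `Orb*` (the bridge), byte-identical copies of the files of the closed tower
T6.
-/

set_option autoImplicit false
set_option linter.unusedSectionVars false
set_option linter.style.haveILetI false

open MeasureTheory
open scoped ENNReal Pointwise

noncomputable section

namespace Fermat.Agent.LT.T7.H208

open Fermat.Agent.LT Fermat.Agent.LT.T6 Fermat.Agent.LT.T6.H846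

section Abstract

variable {G H : Type} [Group G] [Group H] {s : G →* G} {δ : G} {ι : H →* G}
  {U : Subgroup G} {Up : G → Prop} {C : G → G → Prop}
  [TopologicalSpace G] [IsTopologicalGroup G] [SecondCountableTopology G]
  [MeasurableSpace G] [BorelSpace G]
  [TopologicalSpace H] [IsTopologicalGroup H] [SecondCountableTopology H]
  [MeasurableSpace H] [BorelSpace H]

/-- **Integrability in the abstract bridge** (the first half of the proof of
`Frame846.orbSum_eq_integral` of helper846). -/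
theorem integrable_frame208 (F : Frame846 s δ ι U Up C) (hι : Continuous ι)
    (hU : IsOpen (U : Set G))
    (μ : Measure G) [μ.IsMulLeftInvariant] (hμU : μ (U : Set G) = 1)
    (ν : Measure H) [ν.IsMulLeftInvariant] [ν.IsOpenPosMeasure]
    (hT : ν {t : H | C δ (ι t)} = 1)
    (φ : G → ℂ) (hφ : IsBiInv Up φ) (c : ℂ) (hc : IsOrbSumGen s Up C φ δ c)
    (β : G → ℝ) (hβc : Continuous β) (hβ0 : ∀ x, 0 ≤ β x)
    (hβ1 : ∀ x : G, ∫ t : H, β (ι t * x) ∂ν = 1) :
    Integrable (fun x : G => φ (x⁻¹ * δ * s x) * (β x : ℂ)) μ := by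
  classical
  haveI : IsLocallyFiniteMeasure μ := locallyFinite_G846 U hU μ hμU
  haveI : IsLocallyFiniteMeasure ν := F.locallyFinite_H hι hU ν hT
  obtain ⟨R, hR1, hR2, hR3, hcsum⟩ := hc
  choose! X hXeq using hR1
  set D : G → Set G := fun y => dcoset846 ι U (X y) with hD
  have hDm : ∀ y, MeasurableSet (D y) := fun y => (isOpen_dcoset846 ι U hU _).measurableSet
  have hF1 : ∀ y ∈ R, ∀ z ∈ D y, φ (z⁻¹ * δ * s z) = φ y := by
    intro y hy z hz
    obtain ⟨t, u, hu, rfl⟩ := hz
    rw [F.twconj_dcoset, ← hXeq y hy]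
    exact hφ u⁻¹ (s u) y ((F.up _).2 (U.inv_mem hu)) ((F.up _).2 (F.sU u hu))
  have hF2 : ∀ z, φ (z⁻¹ * δ * s z) ≠ 0 → ∃ y ∈ R, z ∈ D y := by
    intro z hz
    obtain ⟨y', hy', u, hu, he⟩ := hR3 _ ⟨z, rfl⟩ hz
    refine ⟨y', hy', F.mem_dcoset_of_eq (X y') z u ((F.up u).1 hu) ?_⟩
    rw [he, ← hXeq y' hy']
  have hF3 : ∀ y ∈ R, ∀ y' ∈ R, ∀ z, z ∈ D y → z ∈ D y' → y = y' := by
    intro y hy y' hy' z hz hz'
    obtain ⟨t, u, hu, h1⟩ := hz
    obtain ⟨t', u', hu', h2⟩ := hz'
    have a1 : z⁻¹ * δ * s z = u⁻¹ * y * s u := by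
      rw [h1, F.twconj_dcoset, ← hXeq y hy]
    have a2 : z⁻¹ * δ * s z = u'⁻¹ * y' * s u' := by
      rw [h2, F.twconj_dcoset, ← hXeq y' hy']
    apply hR2 y hy y' hy'
    refine ⟨u * u'⁻¹, (F.up _).2 (U.mul_mem hu (U.inv_mem hu')), ?_⟩
    have e : y' = u' * (u'⁻¹ * y' * s u') * (s u')⁻¹ := by group
    rw [e, ← a2, a1]
    simp only [map_mul, map_inv, mul_inv_rev, inv_inv, mul_assoc]
  set βe : G → ℝ≥0∞ := fun z => ENNReal.ofReal (β z) with hβe
  have hβem : Measurable βe := ENNReal.measurable_ofReal.comp hβc.measurable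
  have hβe1 : ∀ z, ∫⁻ t : H, βe (ι t * z) ∂ν = 1 := by
    intro z
    have h := integral_eq_lintegral_of_nonneg_ae (μ := ν) (f := fun t : H => β (ι t * z))
      (Filter.Eventually.of_forall fun t => hβ0 _)
      (hβc.comp (hι.mul continuous_const)).aestronglyMeasurable
    rw [hβ1 z] at h
    exact (ENNReal.toReal_eq_one_iff _).1 h.symm
  have hL : ∀ y ∈ R, ∫⁻ z in D y, βe z ∂μ = (cIndex Up C y : ℝ≥0∞) := by
    intro y hy
    have h1 := lintegral_doubleCoset846 μ ν ι hι U hU hμU βe hβem hβe1 (X y)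
    have h2 := F.cIndex_mul_stab ν hι hU hT (X y)
    rw [← hXeq y hy] at h2
    have e1 := ENNReal.eq_inv_of_mul_eq_one_left h2
    have e2 := ENNReal.eq_inv_of_mul_eq_one_left (by rwa [mul_comm] at h1 :
      (∫⁻ z in D y, βe z ∂μ) * ν (stab846 ι U (X y)) = 1)
    rw [e1, e2]
  have hInt : ∀ y ∈ R, IntegrableOn β (D y) μ := by
    intro y hy
    refine ⟨hβc.aestronglyMeasurable, ?_⟩
    rw [hasFiniteIntegral_iff_ofReal (Filter.Eventually.of_forall fun z => hβ0 z)]
    have := hL y hy
    simp only [hβe] at this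
    rw [this]
    exact ENNReal.natCast_lt_top _
  set g : G → G → ℂ := fun y z => φ y * (D y).indicator (fun z => (β z : ℂ)) z with hg
  have hpt : ∀ z, φ (z⁻¹ * δ * s z) * (β z : ℂ) = ∑ y ∈ R, g y z := by
    intro z
    by_cases h : ∃ y ∈ R, z ∈ D y
    · obtain ⟨y₀, hy₀, hz₀⟩ := h
      rw [Finset.sum_eq_single y₀]
      · simp only [hg, Set.indicator_of_mem hz₀]
        rw [hF1 y₀ hy₀ z hz₀]
      · intro y hy hne
        have : z ∉ D y := fun hz => hne (hF3 y hy y₀ hy₀ z hz hz₀)
        simp only [hg, Set.indicator_of_notMem this, mul_zero]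
      · intro h'
        exact absurd hy₀ h'
    · have hz0 : φ (z⁻¹ * δ * s z) = 0 := by
        by_contra hne
        exact h (hF2 z hne)
      rw [hz0, zero_mul]
      symm
      apply Finset.sum_eq_zero
      intro y hy
      have : z ∉ D y := fun hz => h ⟨y, hy, hz⟩
      simp only [hg, Set.indicator_of_notMem this, mul_zero]
  have hgInt : ∀ y ∈ R, Integrable (g y) μ := by
    intro y hy
    refine Integrable.const_mul ?_ _
    rw [integrable_indicator_iff (hDm y)]
    exact (hInt y hy).ofReal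
  have hsum : Integrable (fun z => ∑ y ∈ R, g y z) μ := integrable_finsetSum R hgInt
  exact hsum.congr (Filter.Eventually.of_forall fun z => (hpt z).symm)

end Abstract

section Local

variable {k : Type} [Field k] [Valued k Γ₀]

/-- The trivial extension `k/k` is a local extension of degree `1`. -/
theorem isLocalExt_refl208 : IsLocalExt k k 1 1 (RingHom.id k) (RingEquiv.refl k) where
  cyc :=
    { pos := Nat.one_pos
      fix_i := fun _ => rfl
      fixed := fun y _ => ⟨y, rfl⟩
      order := fun _ => rfl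
      faithful := fun m h0 h1 => absurd h1 (by omega) }
  e_pos := Nat.one_pos
  val_i := fun x => by rw [pow_one]; rfl
  val_s := fun _ => rfl

/-- `N_1 δ = δ`. -/
theorem twNorm_one208 (s : k ≃+* k) (γ : GL (Fin 2) k) : twNorm s 1 γ = γ := by
  show γ * (glAut s) 1 = γ
  rw [map_one, mul_one]

/-- **The cut-off orbital integral of a bi-invariant function of finite support converges.** -/
theorem integrable_orb208 (hEx : OrbSumExC) {q : ℕ} (hk : IsLocalField k q) (m : ℕ)
    (μ : @Measure (GL (Fin 2) k) (borel _))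
    (hμ : @Measure.IsHaarMeasure _ _ _ (borel _) μ) (hμU : μ {g | InU m g} = 1)
    (γ : GL (Fin 2) k) (hγ : IsReg γ)
    (μT : @Measure (twCentSub (glAut (RingEquiv.refl k)) γ) (borel _))
    (hμT : @Measure.IsHaarMeasure _ _ _ (borel _) μT)
    (hμTc : μT {t | Valued.v ((t : GL (Fin 2) k) : Matrix (Fin 2) (Fin 2) k).trace ≤ 1 ∧
        Valued.v ((t : GL (Fin 2) k) : Matrix (Fin 2) (Fin 2) k).det = 1} = 1)
    (β : GL (Fin 2) k → ℝ) (hβc : Continuous β) (hβ0 : ∀ x, 0 ≤ β x)
    (hβ1 : ∀ x : GL (Fin 2) k,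
      @integral _ _ _ _ (borel _) μT
        (fun t : twCentSub (glAut (RingEquiv.refl k)) γ => β ((t : GL (Fin 2) k) * x)) = 1)
    (φ : GL (Fin 2) k → ℂ) (hφ : IsBiInv (InU m) φ) (hφs : HasFinSupp (InU m) φ) :
    @Integrable _ _ _ _ (borel _) (fun x : GL (Fin 2) k => φ (x⁻¹ * γ * x) * (β x : ℂ)) μ := by
  have hreg : IsReg (twNorm (RingEquiv.refl k) 1 γ) := by rw [twNorm_one208]; exact hγ
  have hk' : IsLocalField k (q ^ (1 / 1)) := by
    have : q ^ (1 / 1) = q := by norm_num
    rw [this]; exact hk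
  obtain ⟨c, hc⟩ := hEx k k q 1 1 (RingHom.id k) (RingEquiv.refl k) hk hk' isLocalExt_refl208
    m φ hφ hφs γ hreg
  haveI := secondCountable_GL846 hk
  letI : MeasurableSpace (GL (Fin 2) k) := borel _
  haveI : BorelSpace (GL (Fin 2) k) := ⟨rfl⟩
  haveI : SecondCountableTopology (twCentSub (glAut (RingEquiv.refl k)) γ) :=
    (Topology.IsInducing.subtypeVal
      (t := ((twCentSub (glAut (RingEquiv.refl k)) γ : Subgroup (GL (Fin 2) k)) :
        Set (GL (Fin 2) k)))).secondCountableTopology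
  letI : MeasurableSpace (twCentSub (glAut (RingEquiv.refl k)) γ) := borel _
  haveI : BorelSpace (twCentSub (glAut (RingEquiv.refl k)) γ) := ⟨rfl⟩
  haveI := hμ
  haveI := hμT
  have F := frame846 1 (RingEquiv.refl k) (fun _ => rfl) (fun _ => rfl) m γ hreg
  have hT : μT {t : twCentSub (glAut (RingEquiv.refl k)) γ |
      InTwCentC (RingEquiv.refl k) γ ((twCentSub (glAut (RingEquiv.refl k)) γ).subtype t)}
      = 1 := by
    rw [← hμTc]
    congr 1
    ext t
    exact ⟨fun h => h.2, fun h => ⟨t.2, h⟩⟩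
  have h := integrable_frame208 F continuous_subtype_val (isOpen_InU846 hk m) μ hμU μT hT φ hφ c
    hc β hβc hβ0 hβ1
  refine h.congr (Filter.Eventually.of_forall fun x => ?_)
  show φ (x⁻¹ * γ * glAut (RingEquiv.refl k) x) * (β x : ℂ) = φ (x⁻¹ * γ * x) * (β x : ℂ)
  rw [glAut_eq_self846 (RingEquiv.refl k) (fun _ => rfl) x]

end Local

end Fermat.Agent.LT.T7.H208

end
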