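import Mathlib
import Fermat.Agent.LT.T7.H208.SplitIntbl
import Fermat.Agent.LT.T7.H555.ChainFubini
import Fermat.Agent.LT.T7.H584.ConvSumInt

/-!
# Row LT, tower T7, station C2, leaf C2.7.13.3b `LocEqSplitC305b` (helper208, registry row 2741)
# PART C: THE LOCAL CORE (abstract local field)

OFF-MAIN.  `k` a local field (`T6.IsLocalField k q`), `μ` the Haar measure of `GL₂(k)` with
`μ(U(m)) = 1`, `γ` regular, `(μT, β)` the torus measure and the cut-off function of `γ`;
`φ 0, φ 1, …` bi-`U(m)`-invariant of finite support, `f = φ 0 * ⋯ * φ (l-1)`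
(`T6.IsConvProd`), `δ 0 ⋯ δ (l-1) = γ`.  Then

    locEqSplit_core208 :  H340.splitInt340 l hl μ β φ δ = H305.locInt305 μ β f γ.

This is the common core of `H340.LocEqSplitC340` (`LocHyp305.split` gives `IsConvProd`),
`H305.LocEqSplitC305b` (`IsSplitVal305b` contains `IsConvProd`) and of the mirrors over `ℚ`.

Proof.  Fubini for the split integral (helper555 `splitInt340_eq555`, on helper159
`iterL_eq159`): the functions are continuous with compact support (`U(m)` is compact and open:
helper420, helper846); the orbital integral of the indicator function of a compact set converges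
(`integrable_orb_compact208`: the orbit-sum bridge of helper846 and `T6.OrbSumExC`);
`T6.IsConvProd` is the convolution integral (helper584 `convL_eq_of_isConvProd584`).

No hole, nothing assumed (`T6.OrbSumExC` is a hypothesis: it is a component of `T6.T6Out`).
-/

set_option autoImplicit false
set_option linter.unusedSectionVars false
set_option linter.style.haveILetI false

open MeasureTheory
open scoped ENNReal Pointwise

noncomputable section

namespace Fermat.Agent.LT.T7.H208

open Fermat.Agent.LT Fermat.Agent.LT.T6 Fermat.Agent.LT.T6.H846 Fermat.Agent.LT.T7.H305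
  Fermat.Agent.LT.T7.H159

section Top

variable {k : Type} [Field k] [Valued k Γ₀]

/-- `U(m)` is compact. -/
theorem isCompact_U208 {q : ℕ} (hk : IsLocalField k q) (m : ℕ) :
    IsCompact {g : GL (Fin 2) k | InU m g} :=
  T6.H420.isCompact_subU hk m

/-- The coset `x U(m)` is open. -/
theorem isOpen_coset208 {q : ℕ} (hk : IsLocalField k q) (m : ℕ) (x : GL (Fin 2) k) :
    IsOpen {y : GL (Fin 2) k | InU m (x⁻¹ * y)} :=
  (isOpen_InU846 hk m).preimage (continuous_const.mul continuous_id)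

/-- A bi-`U(m)`-invariant function is continuous. -/
theorem continuous_of_biInv208 {q : ℕ} (hk : IsLocalField k q) (m : ℕ) (φ : GL (Fin 2) k → ℂ)
    (hφ : IsBiInv (InU m) φ) : Continuous φ := by
  apply IsLocallyConstant.continuous
  rw [IsLocallyConstant.iff_exists_open]
  intro x
  refine ⟨{y | InU m (x⁻¹ * y)}, isOpen_coset208 hk m x, ?_, ?_⟩
  · show InU m (x⁻¹ * x)
    rw [inv_mul_cancel]
    exact inU_one846 m
  · intro y hy
    have h := hφ 1 (x⁻¹ * y) x (inU_one846 m) hy
    rw [one_mul, mul_inv_cancel_left] at h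
    exact h

/-- A function of finite support modulo `U(m)` has compact support. -/
theorem hasCompactSupport_of_finSupp208 {q : ℕ} (hk : IsLocalField k q) (m : ℕ)
    (φ : GL (Fin 2) k → ℂ) (hφs : HasFinSupp (InU m) φ) : HasCompactSupport φ := by
  obtain ⟨F, hF⟩ := hφs
  refine HasCompactSupport.intro
    (K := ⋃ x ∈ F, (fun u : GL (Fin 2) k => x * u) '' {g : GL (Fin 2) k | InU m g}) ?_ ?_
  · exact F.isCompact_biUnion fun x _ =>
      (isCompact_U208 hk m).image (continuous_const.mul continuous_id)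
  · intro g hg
    by_contra hne
    obtain ⟨x, hx, u, hu, rfl⟩ := hF g hne
    exact hg (Set.mem_biUnion hx ⟨u, hu, rfl⟩)

/-- Every compact set is contained in the support of a bi-`U(m)`-invariant indicator function of
finite support. -/
theorem exists_biInv_ge208 {q : ℕ} (hk : IsLocalField k q) (m : ℕ) (K : Set (GL (Fin 2) k))
    (hK : IsCompact K) :
    ∃ φ : GL (Fin 2) k → ℂ, IsBiInv (InU m) φ ∧ HasFinSupp (InU m) φ ∧ ∀ g ∈ K, φ g = 1 := by
  classical
  set Us : Set (GL (Fin 2) k) := {g | InU m g} with hUs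
  set S : Set (GL (Fin 2) k) := Us * K * Us with hS
  have hSc : IsCompact S := ((isCompact_U208 hk m).mul hK).mul (isCompact_U208 hk m)
  have hmem : ∀ g : GL (Fin 2) k, g ∈ S ↔ ∃ a x b, InU m a ∧ x ∈ K ∧ InU m b ∧ g = a * x * b := by
    intro g
    constructor
    · rintro ⟨ax, ⟨a, ha, x, hx, rfl⟩, b, hb, rfl⟩
      exact ⟨a, x, b, ha, hx, hb, rfl⟩
    · rintro ⟨a, x, b, ha, hx, hb, rfl⟩
      exact ⟨a * x, ⟨a, ha, x, hx, rfl⟩, b, hb, rfl⟩
  have hbi : ∀ u u' g : GL (Fin 2) k, InU m u → InU m u' → (u * g * u' ∈ S ↔ g ∈ S) := by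
    intro u u' g hu hu'
    rw [hmem, hmem]
    constructor
    · rintro ⟨a, x, b, ha, hx, hb, he⟩
      refine ⟨u⁻¹ * a, x, b * u'⁻¹, inU_mul846 m _ _ (inU_inv846 m _ hu) ha, hx,
        inU_mul846 m _ _ hb (inU_inv846 m _ hu'), ?_⟩
      have : g = u⁻¹ * (u * g * u') * u'⁻¹ := by group
      rw [this, he]
      group
    · rintro ⟨a, x, b, ha, hx, hb, rfl⟩
      exact ⟨u * a, x, b * u', inU_mul846 m _ _ hu ha, hx, inU_mul846 m _ _ hb hu', by group⟩
  obtain ⟨t, -, ht⟩ := hSc.elim_nhds_subcover (fun z => {y | InU m (z⁻¹ * y)}) (fun z _ =>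
    (isOpen_coset208 hk m z).mem_nhds (by
      show InU m (z⁻¹ * z)
      rw [inv_mul_cancel]
      exact inU_one846 m))
  refine ⟨S.indicator fun _ => (1 : ℂ), ?_, ?_, ?_⟩
  · intro u u' g hu hu'
    by_cases hg : g ∈ S
    · rw [Set.indicator_of_mem hg, Set.indicator_of_mem ((hbi u u' g hu hu').2 hg)]
    · rw [Set.indicator_of_notMem hg,
        Set.indicator_of_notMem (fun h => hg ((hbi u u' g hu hu').1 h))]
  · refine ⟨t, fun g hg => ?_⟩
    have hgS : g ∈ S := by
      by_contra h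
      exact hg (Set.indicator_of_notMem h _)
    obtain ⟨z, hz, hgz⟩ := Set.mem_iUnion₂.1 (ht hgS)
    exact ⟨z, hz, z⁻¹ * g, hgz, by rw [mul_inv_cancel_left]⟩
  · intro g hg
    have hgS : g ∈ S := (hmem g).2 ⟨1, g, 1, inU_one846 m, hg, inU_one846 m, by simp⟩
    exact Set.indicator_of_mem hgS _

/-- **The cut-off orbital integral of (the indicator function of) a compact set converges.** -/
theorem integrable_orb_compact208 (hEx : OrbSumExC) {q : ℕ} (hk : IsLocalField k q) (m : ℕ)
    (μ : @Measure (GL (Fin 2) k) (borel _))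
    (hμ : @Measure.IsHaarMeasure _ _ _ (borel _) μ) (hμU : μ {g | InU m g} = 1)
    (γ : GL (Fin 2) k) (hγ : IsReg γ)
    (μT : @Measure (twCentSub (glAut (RingEquiv.refl k)) γ) (borel _))
    (hμT : @Measure.IsHaarMeasure _ _ _ (borel _) μT)
    (hμTc : μT {t | Valued.v ((t : GL (Fin 2) k) : Matrix (Fin 2) (Fin 2) k).trace ≤ 1 ∧
        Valued.v ((t : GL (Fin 2) k) : Matrix (Fin 2) (Fin 2) k).det = 1} = 1)
    (β : GL (Fin 2) k → ℝ) (hβc : Continuous β) (hβ0 : ∀ x, 0 ≤ β x)
    (hβ1 : ∀ x : GL (Fin 2) k,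
      @integral _ _ _ _ (borel _) μT
        (fun t : twCentSub (glAut (RingEquiv.refl k)) γ => β ((t : GL (Fin 2) k) * x)) = 1)
    (K : Set (GL (Fin 2) k)) (hK : IsCompact K) :
    @Integrable _ _ _ _ (borel _)
      (fun a : GL (Fin 2) k => K.indicator (fun _ => (1 : ℝ)) (a⁻¹ * γ * a) * β a) μ := by
  classical
  obtain ⟨φ, hφ, hφs, hφK⟩ := exists_biInv_ge208 hk m K hK
  have h := integrable_orb208 hEx hk m μ hμ hμU γ hγ μT hμT hμTc β hβc hβ0 hβ1 φ hφ hφs
  haveI := secondCountable_GL846 hk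
  letI : MeasurableSpace (GL (Fin 2) k) := borel _
  haveI : BorelSpace (GL (Fin 2) k) := ⟨rfl⟩
  have hconj : Continuous fun a : GL (Fin 2) k => a⁻¹ * γ * a :=
    (continuous_inv.mul continuous_const).mul continuous_id
  have hmeas : Measurable
      (fun a : GL (Fin 2) k => K.indicator (fun _ => (1 : ℝ)) (a⁻¹ * γ * a) * β a) := by
    refine Measurable.mul ?_ hβc.measurable
    exact (measurable_const.indicator hK.isClosed.measurableSet).comp hconj.measurable
  refine Integrable.mono' h.norm hmeas.aestronglyMeasurable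
    (Filter.Eventually.of_forall fun a => ?_)
  show ‖K.indicator (fun _ => (1 : ℝ)) (a⁻¹ * γ * a) * β a‖ ≤ ‖φ (a⁻¹ * γ * a) * (β a : ℂ)‖
  by_cases ha : a⁻¹ * γ * a ∈ K
  · rw [Set.indicator_of_mem ha, hφK _ ha, one_mul, one_mul, Complex.norm_real]
  · rw [Set.indicator_of_notMem ha, zero_mul, norm_zero]
    exact norm_nonneg _

end Top

section Core

variable {k : Type} [Field k] [Valued k Γ₀]

/-- **THE LOCAL CORE of the equality at a split place.** -/
theorem locEqSplit_core208 (hEx : OrbSumExC) {q : ℕ} (hk : IsLocalField k q) (m l : ℕ)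
    (hl : 0 < l)
    (μ : @Measure (GL (Fin 2) k) (borel _)) (hμ : IsLocHaar305 m μ)
    (γ : GL (Fin 2) k) (hγ : IsReg γ)
    (μT : @Measure (twCentSub (glAut (RingEquiv.refl k)) γ) (borel _))
    (hμT : IsLocTor305 (RingEquiv.refl k) γ μT)
    (β : GL (Fin 2) k → ℝ) (hβ : IsLocCut305 (RingEquiv.refl k) γ μT β)
    (φ : ℕ → GL (Fin 2) k → ℂ) (hbi : ∀ j, IsBiInv (InU m) (φ j))
    (hfs : ∀ j, HasFinSupp (InU m) (φ j))
    (f : GL (Fin 2) k → ℂ) (hconv : IsConvProd (InU m) l φ f)
    (δ : ℕ → GL (Fin 2) k) (hδ : prodFrom159 δ l 0 = γ) :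
    H340.splitInt340 l hl μ β φ δ = locInt305 μ β f γ := by
  obtain ⟨hμH, hμU⟩ := hμ
  obtain ⟨hμTH, hμTc⟩ := hμT
  obtain ⟨hβc, hβ0, hβ1⟩ := hβ
  haveI := secondCountable_GL846 hk
  have hint : ∀ K : Set (GL (Fin 2) k), IsCompact K →
      @Integrable _ _ _ _ (borel _)
        (fun a : GL (Fin 2) k =>
          K.indicator (fun _ => (1 : ℝ)) (a⁻¹ * prodFrom159 δ l 0 * a) * β a) μ := by
    intro K hK
    rw [hδ]
    exact integrable_orb_compact208 hEx hk m μ hμH hμU γ hγ μT hμTH hμTc β hβc hβ0 hβ1 K hK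
  letI : MeasurableSpace (GL (Fin 2) k) := borel _
  haveI : BorelSpace (GL (Fin 2) k) := ⟨rfl⟩
  haveI := hμH
  haveI : IsLocallyFiniteMeasure μ :=
    locallyFinite_G846 (subU846 k m) (isOpen_InU846 hk m) μ hμU
  have hUV : H584.IsUnitVol584 μ (InU m) :=
    { one := inU_one846 m
      mul := fun a b ha hb => inU_mul846 m a b ha hb
      inv := fun a ha => inU_inv846 m a ha
      meas := (isOpen_InU846 hk m).measurableSet
      vol := hμU }
  have hf : f = convL159 μ φ (l - 1) := H584.convL_eq_of_isConvProd584 hUV l φ f hbi hconv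
  have h := H555.splitInt340_eq555 l hl μ inferInstance inferInstance inferInstance φ δ
    (fun j => continuous_of_biInv208 hk m (φ j) (hbi j))
    (fun j => hasCompactSupport_of_finSupp208 hk m (φ j) (hfs j)) β hβc hβ0 hint
  rw [h, hδ, ← hf]
  rfl

end Core

end Fermat.Agent.LT.T7.H208

end
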