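import Mathlib
import Fermat.Agent.LT.T7.H305.Match893Spec
import Fermat.Agent.LT.T7.H208.SplitAlg
import Fermat.Agent.LT.T7.H208.SplitCore

/-!
# Row LT, tower T7, station C2, leaf C2.7.13.3b `LocEqSplitC305b` (helper208, registry row 2741)

OFF-MAIN.  Proves `Fermat.Agent.LT.T7.H305.LocEqSplitC305b K K'` VERBATIM (spec:
`T7/H305/Match893Spec.lean`, helper305).

The value `J` of `IsSplitVal305b` is the split integral for an enumeration `w 0, …, w (l-1)` of
the places over `v` and identifications `i j : K_v ≃ K'_{w j}` for which the levels agree and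
`f₀ v = φ_0 * ⋯ * φ_{l-1}`, `φ_j = φ₀ (w j) ∘ i_j`.  The functions `φ_j` are bi-`U(m v)`-invariant
of finite support (`LocHyp893.inv_up`, transported by the valuation preserving isomorphism
`i j`); `δ_0 ⋯ δ_{l-1} = γ_v` (`prod_eq_gamma208`); `γ_v` is regular (`γ` is elliptic); `K_v` is a
local field (`T6.InstLocalC`); the local core `locEqSplit_core208` (`SplitCore.lean`).
-/

set_option autoImplicit false

open IsDedekindDomain NumberField MeasureTheory

noncomputable section

namespace Fermat.Agent.LT.T7.H208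

open Fermat.Agent.LT.H556 Fermat.Agent.LT.H556.A0 Fermat.Agent.LT Fermat.Agent.LT.T7
  Fermat.Agent.LT.T7.H305 Fermat.Agent.LT.T7.H159

/-! ## 1. Transport by a valuation preserving isomorphism -/

section Transport

variable {k k' : Type} [Field k] [Field k'] [Valued k T6.Γ₀] [Valued k' T6.Γ₀]

/-- A valuation preserving homomorphism maps `U(n)` to `U(n)`. -/
theorem inU_map208 (i : k →+* k') (hi : ∀ x : k, Valued.v (i x) = Valued.v x) (n : ℕ)
    (g : GL (Fin 2) k) (hg : T6.InU n g) : T6.InU n (Matrix.GeneralLinearGroup.map i g) := by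
  have h1 : ∀ a b : Fin 2, (1 : Matrix (Fin 2) (Fin 2) k') a b
      = i ((1 : Matrix (Fin 2) (Fin 2) k) a b) := by
    intro a b
    by_cases hab : a = b
    · subst hab
      rw [Matrix.one_apply_eq, Matrix.one_apply_eq, map_one]
    · rw [Matrix.one_apply_ne hab, Matrix.one_apply_ne hab, map_zero]
  intro a b
  refine ⟨?_, ?_⟩
  · show Valued.v (i ((g : Matrix (Fin 2) (Fin 2) k) a b) - (1 : Matrix (Fin 2) (Fin 2) k') a b)
      ≤ _
    rw [h1, ← map_sub, hi]
    exact (hg a b).1
  · have hinv : (Matrix.GeneralLinearGroup.map i g)⁻¹ = Matrix.GeneralLinearGroup.map i g⁻¹ :=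
      (map_inv (Matrix.GeneralLinearGroup.map i) g).symm
    rw [hinv]
    show Valued.v (i (((g⁻¹ : GL (Fin 2) k) : Matrix (Fin 2) (Fin 2) k) a b)
      - (1 : Matrix (Fin 2) (Fin 2) k') a b) ≤ _
    rw [h1, ← map_sub, hi]
    exact (hg a b).2

/-- `i⁻¹ (i g) = g` on `GL₂`. -/
theorem map_symm_map208 (i : k ≃+* k') (g : GL (Fin 2) k) :
    Matrix.GeneralLinearGroup.map ((i.symm : k' ≃+* k) : k' →+* k)
        (Matrix.GeneralLinearGroup.map ((i : k ≃+* k') : k →+* k') g) = g := by
  apply Matrix.GeneralLinearGroup.ext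
  intro a b
  show i.symm (i ((g : Matrix (Fin 2) (Fin 2) k) a b)) = _
  rw [RingEquiv.symm_apply_apply]

/-- Bi-invariance is transported. -/
theorem biInv_comp208 (i : k ≃+* k') (hi : ∀ x : k, Valued.v (i x) = Valued.v x) (n : ℕ)
    (φ : GL (Fin 2) k' → ℂ) (hφ : T6.IsBiInv (T6.InU n) φ) :
    T6.IsBiInv (T6.InU n)
      (fun g => φ (Matrix.GeneralLinearGroup.map ((i : k ≃+* k') : k →+* k') g)) := by
  intro u u' g hu hu'
  show φ (Matrix.GeneralLinearGroup.map _ (u * g * u')) = φ (Matrix.GeneralLinearGroup.map _ g)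
  rw [map_mul, map_mul]
  exact hφ _ _ _ (inU_map208 _ hi n u hu) (inU_map208 _ hi n u' hu')

/-- Finite support is transported. -/
theorem finSupp_comp208 (i : k ≃+* k') (hi : ∀ x : k, Valued.v (i x) = Valued.v x) (n : ℕ)
    (φ : GL (Fin 2) k' → ℂ) (hφ : T6.HasFinSupp (T6.InU n) φ) :
    T6.HasFinSupp (T6.InU n)
      (fun g => φ (Matrix.GeneralLinearGroup.map ((i : k ≃+* k') : k →+* k') g)) := by
  classical
  obtain ⟨F, hF⟩ := hφ
  refine ⟨F.image (Matrix.GeneralLinearGroup.map ((i.symm : k' ≃+* k) : k' →+* k)),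
    fun g hg => ?_⟩
  obtain ⟨x, hx, u, hu, he⟩ := hF _ hg
  refine ⟨Matrix.GeneralLinearGroup.map ((i.symm : k' ≃+* k) : k' →+* k) x,
    Finset.mem_image_of_mem _ hx,
    Matrix.GeneralLinearGroup.map ((i.symm : k' ≃+* k) : k' →+* k) u,
    inU_map208 _ (val_symm208 i hi) n u hu, ?_⟩
  rw [← map_mul, ← he, map_symm_map208]

end Transport

/-! ## 2. The component of an elliptic element is regular -/

section Reg

variable {R S : Type} [CommRing R] [CommRing S]

/-- The discriminant commutes with ring homomorphisms. -/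
theorem disc_map208 (f : R →+* S) (γ : GL (Fin 2) R) :
    T6.disc (Matrix.GeneralLinearGroup.map f γ) = f (T6.disc γ) := by
  show (Matrix.GeneralLinearGroup.map f γ : Matrix (Fin 2) (Fin 2) S).trace ^ 2
      - 4 * (Matrix.GeneralLinearGroup.map f γ : Matrix (Fin 2) (Fin 2) S).det
    = f ((γ : Matrix (Fin 2) (Fin 2) R).trace ^ 2 - 4 * (γ : Matrix (Fin 2) (Fin 2) R).det)
  rw [Matrix.trace_fin_two, Matrix.det_fin_two, Matrix.trace_fin_two, Matrix.det_fin_two]
  have e : ∀ a b : Fin 2, (Matrix.GeneralLinearGroup.map f γ : Matrix (Fin 2) (Fin 2) S) a b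
      = f ((γ : Matrix (Fin 2) (Fin 2) R) a b) := fun _ _ => rfl
  rw [e, e, e, e]
  simp only [map_sub, map_mul, map_pow, map_add, map_ofNat]

/-- Regularity is preserved by ring homomorphisms. -/
theorem isReg_map208 (f : R →+* S) (γ : GL (Fin 2) R) (hγ : T6.IsReg γ) :
    T6.IsReg (Matrix.GeneralLinearGroup.map f γ) := by
  show IsUnit (T6.disc (Matrix.GeneralLinearGroup.map f γ))
  rw [disc_map208]
  exact IsUnit.map f hγ

end Reg

/-! ## 3. The leaf -/

section Leaf

variable (K K' : Type) [Field K] [NumberField K] [Field K'] [NumberField K'] [Algebra K K']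

/-- **T7.L2.1.C2.7.13.3b `LocEqSplitC305b`** (VERBATIM). -/
theorem locEqSplitC305b_208 : LocEqSplitC305b K K' := by
  intro hT6 D hD _ _ _ μc S n m φ₀ Φ f₀ F hloc δ γ hell hN L hL v hv J hJ
  obtain ⟨_, _, _, _, _, hLocal, _, _, hEx, _⟩ := hT6
  obtain ⟨hl, w, i, hover, hrel, _, hi, hval, hlev, hconv, rfl⟩ := hJ
  have hk : T6.IsLocalField (v.adicCompletion K) (Ideal.absNorm v.asIdeal) := hLocal K v
  have hup : ∀ j : ℕ, T6.IsBiInv (T6.InU (m v)) (φ₀ (w j)) ∧
      T6.HasFinSupp (T6.InU (m v)) (φ₀ (w j)) := by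
    intro j
    have h := hloc.inv_up v hv (w j) (hover j)
    rw [hlev j] at h
    exact h
  exact locEqSplit_core208 hEx hk (m v) D.l hl (L.μv v) (hL.haar v) (locG305 v γ)
    (isReg_map208 _ γ hell.1) (L.μt v) (hL.tor v) (L.βv v) (hL.cut v) _
    (fun j => biInv_comp208 (i j) (hval j) (m v) (φ₀ (w j)) (hup j).1)
    (fun j => finSupp_comp208 (i j) (hval j) (m v) (φ₀ (w j)) (hup j).2)
    (f₀ v) hconv _ (prod_eq_gamma208 D hD v w i hrel hi hval δ γ hN)

end Leaf

end Fermat.Agent.LT.T7.H208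

end
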